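import Mathlib
import Fermat.Agent.LT.T7.B981.PairBaseSpec

/-!
# Row LT, tower T7, leaf T7.L2.1.H2a.A.0.S `IwSuppC981` (helper726, registry row 2913)

OFF-MAIN.  `iwSuppC726 (K) : B981.IwSuppC981 K`, VERBATIM against
`LT/T7/B981/PairBaseSpec.lean` (sha256 cfa0d9f73f18ec34, helper981@7f85485a9), unconditional.
Imports: Mathlib + the spec closure only.  New names only (suffix `726`).

Proof.  `C = tsupport f` (compact: `HasCompactSupport f`), `T5.H32.isIwSupported_of_support32`.
On the support of `f` the entries of `y_v - 1`, `y_v⁻¹ - 1` lie in the closure of `𝔫` in `K_v`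
for every finite `v ∉ P` (`T3.M.IsSuppAtM`); for `v = o j ∣ 𝔫` this closure is contained in the
open unit ball (closed in `K_v`; the elements of `𝔫 ⊆ v` have valuation `< 1`), so the entries of
`y_v`, `y_v⁻¹` are integral and the lower left entry of `y_v` has valuation `< 1`:
`T5.InIwahori (o j) y`.
-/

set_option autoImplicit false

open IsDedekindDomain NumberField

noncomputable section

namespace Fermat.Agent.LT.T7.B981.H726

open Fermat.Agent.LT.H556 Fermat.Agent.LT.H556.A0 Fermat.Agent.LT

variable {K : Type} [Field K] [NumberField K]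

/-- The open unit ball of `K_v` is closed. -/
theorem isClosed_lt_one726 (v : HeightOneSpectrum (𝓞 K)) :
    IsClosed {z : v.adicCompletion K | Valued.v z < 1} := by
  have h := Valued.isClosed_ball (v.adicCompletion K) (1 : _)
  simpa only [Valuation.restrict_lt_one_iff] using h

/-- If `v ∣ 𝔫` then the closure of `𝔫` in `K_v` lies in the open unit ball. -/
theorem valued_lt_one_of_mem_idealClosure726 {𝔫 : Ideal (𝓞 K)} {v : HeightOneSpectrum (𝓞 K)}
    (hv : v.asIdeal ∣ 𝔫) {x : v.adicCompletion K} (hx : x ∈ idealClosure 𝔫 v) :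
    Valued.v x < 1 := by
  have hsub : idealClosure 𝔫 v ⊆ {z : v.adicCompletion K | Valued.v z < 1} := by
    refine closure_minimal ?_ (isClosed_lt_one726 v)
    rintro _ ⟨a, ha, rfl⟩
    show Valued.v (algebraMap K (v.adicCompletion K) (algebraMap (𝓞 K) K a)) < 1
    have key : Valued.v (algebraMap K (v.adicCompletion K) (algebraMap (𝓞 K) K a))
        = v.valuation K (algebraMap (𝓞 K) K a) :=
      HeightOneSpectrum.valuedAdicCompletion_eq_valuation' v _
    rw [key, HeightOneSpectrum.valuation_lt_one_iff_mem]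
    exact Ideal.le_of_dvd hv ha
  exact hsub hx

/-- A matrix over `K_v` which is congruent to `1` modulo the open unit ball has integral
entries. -/
theorem integral_of_sub_one726 (v : HeightOneSpectrum (𝓞 K))
    (M : Matrix (Fin 2) (Fin 2) (v.adicCompletion K))
    (h : ∀ i j : Fin 2, Valued.v ((M - 1) i j) < 1) (i j : Fin 2) :
    M i j ∈ v.adicCompletionIntegers K := by
  rw [HeightOneSpectrum.mem_adicCompletionIntegers]
  have e : M i j = (M - 1) i j + (1 : Matrix (Fin 2) (Fin 2) (v.adicCompletion K)) i j := by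
    rw [Matrix.sub_apply, sub_add_cancel]
  have h1 : Valued.v ((1 : Matrix (Fin 2) (Fin 2) (v.adicCompletion K)) i j) ≤ 1 := by
    by_cases hij : i = j
    · subst hij
      rw [Matrix.one_apply_eq, map_one]
    · rw [Matrix.one_apply_ne hij, map_zero]
      exact zero_le
  rw [e]
  exact (Valuation.map_add _ _ _).trans (max_le (h i j).le h1)

/-- The lower left entry of a matrix congruent to `1` modulo the open unit ball lies in the
open unit ball. -/
theorem lower_left_of_sub_one726 (v : HeightOneSpectrum (𝓞 K))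
    (M : Matrix (Fin 2) (Fin 2) (v.adicCompletion K))
    (h : ∀ i j : Fin 2, Valued.v ((M - 1) i j) < 1) : Valued.v (M 1 0) < 1 := by
  have e : M 1 0 = (M - 1) 1 0 := by
    rw [Matrix.sub_apply, Matrix.one_apply_ne (by decide : (1 : Fin 2) ≠ 0), sub_zero]
  rw [e]
  exact h 1 0

/-- On the support of a function supported at `P ∪ S_∞` the points are Iwahori at the places
`w ∣ 𝔫` outside `P`. -/
theorem inIwahori_of_outsideUM726 {𝔫 : Ideal (𝓞 K)} {P : Finset (HeightOneSpectrum (𝓞 K))}
    {w : HeightOneSpectrum (𝓞 K)} (hw : w.asIdeal ∣ 𝔫) (hP : w ∉ P) {y : G K}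
    (hy : T3.M.OutsideUM K 𝔫 P y) : T5.InIwahori w y := by
  have h1 : ∀ i j : Fin 2, Valued.v ((finComp w y - 1) i j) < 1 := fun i j =>
    valued_lt_one_of_mem_idealClosure726 hw (hy w hP i j).1
  have h2 : ∀ i j : Fin 2, Valued.v ((finComp w y⁻¹ - 1) i j) < 1 := fun i j =>
    valued_lt_one_of_mem_idealClosure726 hw (hy w hP i j).2
  exact ⟨fun i j => integral_of_sub_one726 w _ h1 i j,
    fun i j => integral_of_sub_one726 w _ h2 i j, lower_left_of_sub_one726 w _ h1⟩

variable (K)

/-- **LEAF T7.L2.1.H2a.A.0.S = IW-SUPP**, VERBATIM, unconditional. -/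
theorem iwSuppC726 : B981.IwSuppC981 K := by
  intro 𝔫 P l o hdvd hP f hf hsupp
  refine ⟨tsupport f, hf, T5.H32.isIwSupported_of_support32 ?_⟩
  intro y hy j hj
  exact inIwahori_of_outsideUM726 (hdvd j hj) (hP j hj) (hsupp y hy)

end Fermat.Agent.LT.T7.B981.H726

end
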